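import Fermat.Agent.CAR.BKP.Inf
import Fermat.Agent.TOR.T1C.Lvl
import Fermat.Agent.TOR.T1.Degree
import Fermat.Agent.TOR.T1C.XDat
import Fermat.Agent.TOR.T1C.Cusp
import Fermat.Agent.GAL.KLC.Main

/-!
# CAR / BKP : the concrete instance at `F₀ = FN M'`, `F₁ = FN (M' * q)`, `F = FN (M' * q * q)`

`a0 = alp M' q`, `b0 = bet M' q`, `a1 = alp (M' * q) q`, `b1 = bet (M' * q) q`, `x = xF M'`,
`t₁ = t1C M' q = x(τ) x(qτ)`, `t = tC M' q = x(τ) x(q²τ)`.   Everything is unconditional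
(`AdmLevel M'`, `q` prime, `q ∤ M'`; the place `A | q` is only used to quote `T1C`).
-/

set_option autoImplicit false
set_option linter.unusedSectionVars false

open Polynomial ModularCurve AlgebraicCurve

noncomputable section

namespace Fermat.Agent.CAR.BKP

open Fermat.Agent.GR Fermat.Agent.GAL Fermat.Agent.GAL.KL Fermat.Agent.GAL.KLC
open Fermat.Agent.GR.HeckeField Fermat.Agent.S24 Fermat.Agent.TOR Fermat.Agent.TOR.T1

variable (M' q : ℕ) [NeZero M'] [NeZero q]

/-- `f(τ)` : level `M'` to level `M' q²`. -/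
abbrev alC : FN M' →ₐ[Qb] FN (M' * q * q) := (alp (M' * q) q).comp (alp M' q)

/-- `f(qτ)` : level `M'` to level `M' q²`. -/
abbrev beC : FN M' →ₐ[Qb] FN (M' * q * q) := (alp (M' * q) q).comp (bet M' q)

/-- `f(q²τ)` : level `M'` to level `M' q²`. -/
abbrev gaC : FN M' →ₐ[Qb] FN (M' * q * q) := (bet (M' * q) q).comp (bet M' q)

/-- `t₁ = x(τ) x(qτ)`. -/
abbrev t1C : FN (M' * q) := tt (alp M' q) (bet M' q) (xF M')

/-- `t = x(τ) x(q²τ)`. -/
abbrev tC : FN (M' * q * q) := tt (alC M' q) (gaC M' q) (xF M')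

/-- `x(Q^q)`: the two ways. -/
theorem comm_C (c : FN M') : alp (M' * q) q (bet M' q c) = bet (M' * q) q (alp M' q c) := by
  apply Subtype.ext
  have e1 : ((bet (M' * q) q (alp M' q c) : FN (M' * q * q)) : LaurentSeries Kb)
      = qExpand Kb q ((alp M' q c : FN (M' * q)) : LaurentSeries Kb) := coe_heckeBetaBar (M' * q) q _
  have e2 : ((alp M' q c : FN (M' * q)) : LaurentSeries Kb) = (c : LaurentSeries Kb) :=
    coe_heckeAlphaBar M' q _
  have e3 : ((alp (M' * q) q (bet M' q c) : FN (M' * q * q)) : LaurentSeries Kb)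
      = ((bet M' q c : FN (M' * q)) : LaurentSeries Kb) := coe_heckeAlphaBar (M' * q) q _
  have e4 : ((bet M' q c : FN (M' * q)) : LaurentSeries Kb) = qExpand Kb q (c : LaurentSeries Kb) :=
    coe_heckeBetaBar M' q _
  rw [e1, e2, e3, e4]

theorem coe_alC (c : FN M') :
    ((alC M' q c : FN (M' * q * q)) : LaurentSeries Kb) = (c : LaurentSeries Kb) := by
  rw [AlgHom.comp_apply]
  have e2 : ((alp M' q c : FN (M' * q)) : LaurentSeries Kb) = (c : LaurentSeries Kb) :=
    coe_heckeAlphaBar M' q _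
  have e3 : ((alp (M' * q) q (alp M' q c) : FN (M' * q * q)) : LaurentSeries Kb)
      = ((alp M' q c : FN (M' * q)) : LaurentSeries Kb) := coe_heckeAlphaBar (M' * q) q _
  rw [e3, e2]

theorem coe_beC (c : FN M') :
    ((beC M' q c : FN (M' * q * q)) : LaurentSeries Kb) = qExpand Kb q (c : LaurentSeries Kb) := by
  rw [AlgHom.comp_apply]
  have e3 : ((alp (M' * q) q (bet M' q c) : FN (M' * q * q)) : LaurentSeries Kb)
      = ((bet M' q c : FN (M' * q)) : LaurentSeries Kb) := coe_heckeAlphaBar (M' * q) q _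
  have e4 : ((bet M' q c : FN (M' * q)) : LaurentSeries Kb) = qExpand Kb q (c : LaurentSeries Kb) :=
    coe_heckeBetaBar M' q _
  rw [e3, e4]

theorem coe_gaC (c : FN M') :
    ((gaC M' q c : FN (M' * q * q)) : LaurentSeries Kb)
      = qExpand Kb q (qExpand Kb q (c : LaurentSeries Kb)) := by
  rw [AlgHom.comp_apply]
  have e1 : ((bet (M' * q) q (bet M' q c) : FN (M' * q * q)) : LaurentSeries Kb)
      = qExpand Kb q ((bet M' q c : FN (M' * q)) : LaurentSeries Kb) := coe_heckeBetaBar (M' * q) q _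
  have e4 : ((bet M' q c : FN (M' * q)) : LaurentSeries Kb) = qExpand Kb q (c : LaurentSeries Kb) :=
    coe_heckeBetaBar M' q _
  rw [e1, e4]

variable {M' q}

/-- `t` is transcendental. -/
theorem transcendental_tC : Transcendental Qb (tC M' q) := by
  obtain ⟨P, hP⟩ := T1C.exists_place_Q (M' * q * q)
  apply FF.transcendental_of_ord_ne_zero P
  have hx : (xF M' : FN M') ≠ 0 := by
    intro h
    have h1 := order_xR M' Qb
    have h2 : ((xF M' : FN M') : LaurentSeries Qb) = 0 := by rw [h]; rfl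
    have h3 : (xR Qb M').order = 0 := by
      have : xR Qb M' = ((xF M' : FN M') : LaurentSeries Qb) := rfl
      rw [this, h2, HahnSeries.order_zero]
    have := mX_pos M'
    omega
  have hα : alC M' q (xF M') ≠ 0 := (_root_.map_ne_zero _).2 hx
  have hγ : gaC M' q (xF M') ≠ 0 := (_root_.map_ne_zero _).2 hx
  rw [tC, tt, P.ord_mul hα hγ, hP, hP, coe_alC, coe_gaC,
    Fermat.Agent.S28.DG.Indep.order_qExpand, Fermat.Agent.S28.DG.Indep.order_qExpand]
  have h1 : ((xF M' : FN M') : LaurentSeries Kb).order = -(mX M' : ℤ) := order_xR M' Qb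
  rw [h1]
  have hm : (0 : ℤ) < (mX M' : ℤ) := by exact_mod_cast mX_pos M'
  have hq0 : (0 : ℤ) ≤ (q : ℤ) := Nat.cast_nonneg _
  have : 0 ≤ (q : ℤ) * (q * (mX M' : ℤ)) := by positivity
  intro h
  nlinarith

section

variable (hM : AdmLevel M') (hq : q.Prime) (hqM : ¬ q ∣ M') (A : ValuationSubring Qb)
  (hA : A.LiesOverPrime q)

include hM hq hqM hA

/-- `t₁` is transcendental. -/
theorem transcendental_t1C : Transcendental Qb (t1C M' q) :=
  T1.transcendental_tt (T1C.lvl A M' q hq hqM)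
    (T1C.xDat M' q hq A hA (spansStatement M') (riStatement M') (ctStatement M' q hM hq hqM A hA))

/-- level `q M'`: same poles. -/
theorem hpol_C (P : Place Qb (FN (M' * q))) :
    P.ord (alp M' q (xF M')) < 0 ↔ P.ord (bet M' q (xF M')) < 0 := by
  obtain ⟨P₀, P₁, C⟩ := T1C.exists_cusp M' q hq hqM
  exact T1.pole_iff (T1C.lvl A M' q hq hqM)
    (T1C.xDat M' q hq A hA (spansStatement M') (riStatement M') (ctStatement M' q hM hq hqM A hA))
    hq.two_le C P

/-- level `q M'`: comparison of the pole orders. -/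
theorem hle_C (P : Place Qb (FN (M' * q))) (hP : P.ord (alp M' q (xF M')) < 0) :
    (q : ℤ) * P.ord (alp M' q (xF M')) ≤ P.ord (bet M' q (xF M')) ∧
      (q : ℤ) * P.ord (bet M' q (xF M')) ≤ P.ord (alp M' q (xF M')) := by
  obtain ⟨P₀, P₁, C⟩ := T1C.exists_cusp M' q hq hqM
  exact ord_le_of_pole (T1C.lvl A M' q hq hqM)
    (T1C.xDat M' q hq A hA (spansStatement M') (riStatement M') (ctStatement M' q hM hq hqM A hA))
    hq.two_le C P hP

/-- **(P1)** -/
theorem pole_iff_C (P : Place Qb (FN (M' * q * q))) :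
    (P.ord (alC M' q (xF M')) < 0 ↔ P.ord (beC M' q (xF M')) < 0) ∧
    (P.ord (beC M' q (xF M')) < 0 ↔ P.ord (gaC M' q (xF M')) < 0) ∧
    (P.ord (tC M' q) < 0 ↔ P.ord (alC M' q (xF M')) < 0) := by
  rw [AlgHom.comp_apply, AlgHom.comp_apply, AlgHom.comp_apply]
  exact ⟨pole_iff_αβ (hpol_C hM hq hqM A hA) P,
    pole_iff_βγ (hpol_C hM hq hqM A hA) (comm_C M' q) P,
    pole_tt_iff transcendental_tC (hpol_C hM hq hqM A hA) (comm_C M' q) P⟩

/-- **(P2)** -/
theorem isInt_alC {c : FN M'} (h : IsInt Qb (xF M') c) : IsInt Qb (tC M' q) (alC M' q c) := by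
  rw [AlgHom.comp_apply]
  exact isInt_α transcendental_tC (hpol_C hM hq hqM A hA) (comm_C M' q) h

theorem isInt_beC {c : FN M'} (h : IsInt Qb (xF M') c) : IsInt Qb (tC M' q) (beC M' q c) := by
  rw [AlgHom.comp_apply]
  exact isInt_β transcendental_tC (hpol_C hM hq hqM A hA) (comm_C M' q) h

theorem isInt_gaC {c : FN M'} (h : IsInt Qb (xF M') c) : IsInt Qb (tC M' q) (gaC M' q c) := by
  rw [AlgHom.comp_apply]
  exact isInt_γ transcendental_tC (hpol_C hM hq hqM A hA) (comm_C M' q) h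

theorem isInt_alp {z : FN (M' * q)} (h : IsInt Qb (t1C M' q) z) :
    IsInt Qb (tC M' q) (alp (M' * q) q z) :=
  isInt_a1 transcendental_tC (hpol_C hM hq hqM A hA) (comm_C M' q) h

theorem isInt_bet {z : FN (M' * q)} (h : IsInt Qb (t1C M' q) z) :
    IsInt Qb (tC M' q) (bet (M' * q) q z) :=
  isInt_b1 transcendental_tC (hpol_C hM hq hqM A hA) (comm_C M' q) h

/-- **(P3)** -/
theorem isInt_alC_inv {c : FN M'} (h : IsInt Qb (xF M')⁻¹ c) :
    IsInt Qb (tC M' q)⁻¹ (alC M' q c) := by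
  rw [AlgHom.comp_apply]
  exact isInt_α_inv transcendental_tC (hpol_C hM hq hqM A hA) (comm_C M' q) h

theorem isInt_gaC_inv {c : FN M'} (h : IsInt Qb (xF M')⁻¹ c) :
    IsInt Qb (tC M' q)⁻¹ (gaC M' q c) := by
  rw [AlgHom.comp_apply]
  exact isInt_γ_inv transcendental_tC (hpol_C hM hq hqM A hA) (comm_C M' q) h

/-- **(P4)** -/
theorem isInt_norm_alp {z : FN (M' * q * q)} (h : IsInt Qb (tC M' q) z) :
    IsInt Qb (t1C M' q) (@Algebra.norm (FN (M' * q)) (FN (M' * q * q)) _ _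
      (algebraAlong (alp (M' * q) q)) z) :=
  isInt_norm_a1 transcendental_tC (transcendental_t1C hM hq hqM A hA) (hpol_C hM hq hqM A hA)
    (comm_C M' q) h

theorem isInt_norm_bet {z : FN (M' * q * q)} (h : IsInt Qb (tC M' q) z) :
    IsInt Qb (t1C M' q) (@Algebra.norm (FN (M' * q)) (FN (M' * q * q)) _ _
      (algebraAlong (bet (M' * q) q)) z) :=
  isInt_norm_b1 transcendental_tC (transcendental_t1C hM hq hqM A hA) (hpol_C hM hq hqM A hA)
    (comm_C M' q) h

/-- **(P6)** -/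
theorem isInt_inv_gaC_div :
    IsInt Qb (tC M' q)⁻¹ (gaC M' q (xF M') / alC M' q (xF M') ^ (q * q)) := by
  rw [AlgHom.comp_apply, AlgHom.comp_apply]
  exact isInt_inv_γ_div transcendental_tC (hpol_C hM hq hqM A hA) (hle_C hM hq hqM A hA) (comm_C M' q)

theorem isInt_inv_alC_div :
    IsInt Qb (tC M' q)⁻¹ (alC M' q (xF M') / gaC M' q (xF M') ^ (q * q)) := by
  rw [AlgHom.comp_apply, AlgHom.comp_apply]
  exact isInt_inv_α_div transcendental_tC (hpol_C hM hq hqM A hA) (hle_C hM hq hqM A hA) (comm_C M' q)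

end

end Fermat.Agent.CAR.BKP
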