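import Fermat.Agent.CAR.BKP.Poles
import Fermat.Agent.TOR.T1.Poles

/-!
# CAR / BKP : (P6) the functions `γ x / (α x)^(q²)`, `α x / (γ x)^(q²)` are integral over `K[t⁻¹]`

Same abstract three-level setting as `BKP/Poles.lean`.  Extra input (level `q M'`):
at a pole `Q` of `a0 x` : `q * ord_Q (a0 x) ≤ ord_Q (b0 x)` and `q * ord_Q (b0 x) ≤ ord_Q (a0 x)`
(`= ord_le_of_pole`, from `T1.pole_cases`: the orders are `(-m, -qm)` or `(-qm, -m)`).
-/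

set_option autoImplicit false
set_option linter.unusedSectionVars false

open Polynomial ModularCurve AlgebraicCurve

noncomputable section

namespace Fermat.Agent.CAR.BKP

open Fermat.Agent.GAL.KL Fermat.Agent.GAL.KLC Fermat.Agent.TOR.T1 Fermat.Agent.S24.FF
open Fermat.Agent.GAL

section level1

variable {K F₀ F k Γ' Γ₀ : Type*} [Field K] [Field F₀] [Field F] [Algebra K F₀]
  [Algebra K F] [Field k] [LinearOrderedCommGroupWithZero Γ'] [LinearOrderedCommGroupWithZero Γ₀]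
  {v₀ : Valuation F₀ Γ'} {ρ₀ : v₀.integer →+* LaurentSeries k} {v : Valuation F Γ₀}
  {ρ : v.integer →+* LaurentSeries k} {α β : F₀ →ₐ[K] F} {w : F ≃ₐ[K] F} {q : ℕ} [NeZero q]
  {x x' : F₀} {ξ ξ' : LaurentSeries k} {m : ℕ}

variable [IsAlgClosed K] [CharZero K] [IsFF1 K F₀] [IsFF1 K F]

/-- the pole orders of `x(τ)`, `x(qτ)` at level `q M'` differ at most by the factor `q`. -/
theorem ord_le_of_pole (H : Lvl K ρ₀ ρ α β w q) (X : XDat K ρ₀ x x' ξ ξ' m q) (hq : 2 ≤ q)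
    {P₀ : Place K F₀} {P₁ : Place K F} (C : Cusp α β x m q P₀ P₁) (P : Place K F)
    (hP : P.ord (α x) < 0) :
    (q : ℤ) * P.ord (α x) ≤ P.ord (β x) ∧ (q : ℤ) * P.ord (β x) ≤ P.ord (α x) := by
  obtain ⟨P₂, hP₂⟩ := exists_place_comp w P₁
  have hm : (0 : ℤ) < (m : ℤ) := by exact_mod_cast X.m_pos
  have hq0 : (1 : ℤ) ≤ (q : ℤ) := by exact_mod_cast (by omega : 1 ≤ q)
  have key : (q : ℤ) * (q * -(m : ℤ)) ≤ -(m : ℤ) := by
    have h1 : (1 : ℤ) ≤ (q : ℤ) * q := by nlinarith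
    have h2 : (m : ℤ) * 1 ≤ m * ((q : ℤ) * q) := mul_le_mul_of_nonneg_left h1 hm.le
    linarith
  rcases pole_cases H X hq C hP₂ P hP with rfl | rfl
  · rw [C.ordβ, C.ordα, C.ordx]
    constructor
    · exact le_refl _
    · exact key
  · rw [hP₂, hP₂, H.wβ, H.wα, C.ordα, C.ordβ, C.ordx]
    constructor
    · exact key
    · exact le_refl _

end level1

variable {K F₀ F₁ F : Type*} [Field K] [Field F₀] [Field F₁] [Field F] [Algebra K F₀]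
  [Algebra K F₁] [Algebra K F] {a0 b0 : F₀ →ₐ[K] F₁} {a1 b1 : F₁ →ₐ[K] F} {x : F₀} {q : ℕ}

variable [IsAlgClosed K] [CharZero K] [IsFF1 K F₀] [IsFF1 K F₁] [IsFF1 K F]

/-- transport of an inequality between orders along a morphism. -/
theorem ord_map_le (a : F₁ →ₐ[K] F) (P : Place K F) {y z : F₁} {c : ℤ}
    (h : c * (P.restrictAlong a (FF.isIntegral_toRingHom a)).ord y
      ≤ (P.restrictAlong a (FF.isIntegral_toRingHom a)).ord z) :
    c * P.ord (a y) ≤ P.ord (a z) := by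
  rw [Place.ord_restrictAlong a (FF.isIntegral_toRingHom a),
    Place.ord_restrictAlong a (FF.isIntegral_toRingHom a)]
  have h0 : (0 : ℤ) ≤ (P.ramificationIndexAlong a : ℤ) := Nat.cast_nonneg _
  calc c * ((P.ramificationIndexAlong a : ℤ) * (P.restrictAlong a _).ord y)
      = (P.ramificationIndexAlong a : ℤ) * (c * (P.restrictAlong a _).ord y) := by ring
    _ ≤ _ := mul_le_mul_of_nonneg_left h h0

/-- at a pole : `q² ord (α x) ≤ ord (γ x)` and `q² ord (γ x) ≤ ord (α x)`. -/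
theorem ord_le_of_pole₂ (hpol : ∀ P : Place K F₁, P.ord (a0 x) < 0 ↔ P.ord (b0 x) < 0)
    (hle : ∀ P : Place K F₁, P.ord (a0 x) < 0 →
      (q : ℤ) * P.ord (a0 x) ≤ P.ord (b0 x) ∧ (q : ℤ) * P.ord (b0 x) ≤ P.ord (a0 x))
    (hc : ∀ c, a1 (b0 c) = b1 (a0 c)) (P : Place K F) (hP : P.ord (a1 (a0 x)) < 0) :
    ((q * q : ℕ) : ℤ) * P.ord (a1 (a0 x)) ≤ P.ord (b1 (b0 x)) ∧
      ((q * q : ℕ) : ℤ) * P.ord (b1 (b0 x)) ≤ P.ord (a1 (a0 x)) := by
  have h1 := hle _ ((ord_map_neg_iff a1 P _).1 hP)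
  have hP2 : P.ord (b1 (a0 x)) < 0 := by
    rw [← hc]; exact (pole_iff_αβ hpol P).1 hP
  have h2 := hle _ ((ord_map_neg_iff b1 P _).1 hP2)
  have e1 := ord_map_le a1 P h1.1
  have e2 := ord_map_le a1 P h1.2
  have e3 := ord_map_le b1 P h2.1
  have e4 := ord_map_le b1 P h2.2
  rw [hc] at e1 e2
  have hq0 : (0 : ℤ) ≤ (q : ℤ) := Nat.cast_nonneg _
  push_cast
  constructor
  · calc (q : ℤ) * q * P.ord (a1 (a0 x)) = q * (q * P.ord (a1 (a0 x))) := by ring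
      _ ≤ q * P.ord (b1 (a0 x)) := mul_le_mul_of_nonneg_left e1 hq0
      _ ≤ _ := e3
  · calc (q : ℤ) * q * P.ord (b1 (b0 x)) = q * (q * P.ord (b1 (b0 x))) := by ring
      _ ≤ q * P.ord (b1 (a0 x)) := mul_le_mul_of_nonneg_left e4 hq0
      _ ≤ _ := e2

/-- **(P6)** `γ x / (α x)^(q²)` is integral over `K[t⁻¹]`. -/
theorem isInt_inv_γ_div (ht : Transcendental K (tt (a1.comp a0) (b1.comp b0) x))
    (hpol : ∀ P : Place K F₁, P.ord (a0 x) < 0 ↔ P.ord (b0 x) < 0)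
    (hle : ∀ P : Place K F₁, P.ord (a0 x) < 0 →
      (q : ℤ) * P.ord (a0 x) ≤ P.ord (b0 x) ∧ (q : ℤ) * P.ord (b0 x) ≤ P.ord (a0 x))
    (hc : ∀ c, a1 (b0 c) = b1 (a0 c)) :
    IsInt K (tt (a1.comp a0) (b1.comp b0) x)⁻¹ (b1 (b0 x) / a1 (a0 x) ^ (q * q)) := by
  rw [isInt_iff_forall_ord (transcendental_inv ht)]
  intro P hP
  obtain ⟨hα, hγ⟩ := IntTransfer_ne_zero ht
  have hα' : a1 (a0 x) ≠ 0 := hα
  have hγ' : b1 (b0 x) ≠ 0 := hγ
  rw [P.ord_inv, tt, P.ord_mul hα hγ] at hP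
  have hP' : 0 ≤ -(P.ord (a1 (a0 x)) + P.ord (b1 (b0 x))) := hP
  rw [div_eq_mul_inv, P.ord_mul hγ' (inv_ne_zero (pow_ne_zero _ hα')), P.ord_inv, S24.FF.ord_pow]
  by_cases hpole : P.ord (a1 (a0 x)) < 0
  · have := (ord_le_of_pole₂ hpol hle hc P hpole).1
    linarith
  · have h3 : ¬ P.ord (b1 (b0 x)) < 0 := fun h4 => hpole ((pole_iff_αγ hpol hc P).2 h4)
    have e1 : P.ord (a1 (a0 x)) = 0 := by omega
    have e2 : P.ord (b1 (b0 x)) = 0 := by omega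
    rw [e1, e2]
    simp

/-- **(P6)** `α x / (γ x)^(q²)` is integral over `K[t⁻¹]`. -/
theorem isInt_inv_α_div (ht : Transcendental K (tt (a1.comp a0) (b1.comp b0) x))
    (hpol : ∀ P : Place K F₁, P.ord (a0 x) < 0 ↔ P.ord (b0 x) < 0)
    (hle : ∀ P : Place K F₁, P.ord (a0 x) < 0 →
      (q : ℤ) * P.ord (a0 x) ≤ P.ord (b0 x) ∧ (q : ℤ) * P.ord (b0 x) ≤ P.ord (a0 x))
    (hc : ∀ c, a1 (b0 c) = b1 (a0 c)) :
    IsInt K (tt (a1.comp a0) (b1.comp b0) x)⁻¹ (a1 (a0 x) / b1 (b0 x) ^ (q * q)) := by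
  rw [isInt_iff_forall_ord (transcendental_inv ht)]
  intro P hP
  obtain ⟨hα, hγ⟩ := IntTransfer_ne_zero ht
  have hα' : a1 (a0 x) ≠ 0 := hα
  have hγ' : b1 (b0 x) ≠ 0 := hγ
  rw [P.ord_inv, tt, P.ord_mul hα hγ] at hP
  have hP' : 0 ≤ -(P.ord (a1 (a0 x)) + P.ord (b1 (b0 x))) := hP
  rw [div_eq_mul_inv, P.ord_mul hα' (inv_ne_zero (pow_ne_zero _ hγ')), P.ord_inv, S24.FF.ord_pow]
  by_cases hpole : P.ord (a1 (a0 x)) < 0
  · have := (ord_le_of_pole₂ hpol hle hc P hpole).2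
    linarith
  · have h3 : ¬ P.ord (b1 (b0 x)) < 0 := fun h4 => hpole ((pole_iff_αγ hpol hc P).2 h4)
    have e1 : P.ord (a1 (a0 x)) = 0 := by omega
    have e2 : P.ord (b1 (b0 x)) = 0 := by omega
    rw [e1, e2]
    simp

end Fermat.Agent.CAR.BKP
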