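import Fermat.Agent.CAR.BKP.Conc
import Fermat.Agent.CAR.FQ2E.Deg

/-!
# CAR / BKP : (P4) in the names of `FQ2E` : `N1`, `N2`, `P1 = π₁ ∘ N1`, `P2 = π₂ ∘ N2` preserve integrality on the chart `t`
-/

set_option autoImplicit false

open Polynomial ModularCurve AlgebraicCurve

noncomputable section

namespace Fermat.Agent.CAR.BKP

open Fermat.Agent.GR Fermat.Agent.GAL Fermat.Agent.GAL.KL Fermat.Agent.GAL.KLC
open Fermat.Agent.GR.HeckeField Fermat.Agent.S24 Fermat.Agent.TOR Fermat.Agent.TOR.T1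

variable {M' q : ℕ} [NeZero M'] [NeZero q]
  (hM : AdmLevel M') (hq : q.Prime) (hqM : ¬ q ∣ M') (A : ValuationSubring Qb)
  (hA : A.LiesOverPrime q)

include hM hq hqM hA

theorem isInt_N1 {z : FN (M' * q * q)} (h : IsInt Qb (tC M' q) z) :
    IsInt Qb (t1C M' q) (FQ2E.N1 M' q z) :=
  isInt_norm_alp hM hq hqM A hA h

theorem isInt_N2 {z : FN (M' * q * q)} (h : IsInt Qb (tC M' q) z) :
    IsInt Qb (t1C M' q) (FQ2E.N2 M' q z) :=
  isInt_norm_bet hM hq hqM A hA h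

/-- `hP1` of `NRM.exists_chart_data`. -/
theorem isInt_alp_N1 {z : FN (M' * q * q)} (h : IsInt Qb (tC M' q) z) :
    IsInt Qb (tC M' q) (alp (M' * q) q (FQ2E.N1 M' q z)) :=
  isInt_alp hM hq hqM A hA (isInt_N1 hM hq hqM A hA h)

/-- `hP2` of `NRM.exists_chart_data`. -/
theorem isInt_bet_N2 {z : FN (M' * q * q)} (h : IsInt Qb (tC M' q) z) :
    IsInt Qb (tC M' q) (bet (M' * q) q (FQ2E.N2 M' q z)) :=
  isInt_bet hM hq hqM A hA (isInt_N2 hM hq hqM A hA h)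

end Fermat.Agent.CAR.BKP
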