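import Fermat.Agent.TOR.T1.Places
import Fermat.Agent.TOR.T1.IntTransfer
import Fermat.Agent.GAL.FF.ExtNorm

/-!
# CAR / BKP : "same poles" and transfer of integrality between the three levels `M'`, `q M'`, `q² M'`

ABSTRACT THREE-LEVEL SETTING.  `F₀ -a0,b0-> F₁ -a1,b1-> F`, `a1 ∘ b0 = b1 ∘ a0`.
`α = a1 ∘ a0` (`f(τ)`), `β = a1 ∘ b0 = b1 ∘ a0` (`f(qτ)`), `γ = b1 ∘ b0` (`f(q²τ)`).
`t₁ = a0 x * b0 x = T1.tt a0 b0 x`, `t = α x * γ x = T1.tt (a1.comp a0) (b1.comp b0) x`.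

The ONLY input is `hpol : ∀ P : Place K F₁, P.ord (a0 x) < 0 ↔ P.ord (b0 x) < 0` (`= T1.pole_iff` at level `q M'`).
No enumeration of cusps.
-/

set_option autoImplicit false
set_option linter.unusedSectionVars false

open Polynomial ModularCurve AlgebraicCurve

noncomputable section

namespace Fermat.Agent.CAR.BKP

open Fermat.Agent.GAL.KL Fermat.Agent.GAL.KLC Fermat.Agent.TOR.T1 Fermat.Agent.S24.FF
open Fermat.Agent.GAL

variable {K F₀ F₁ F : Type*} [Field K] [Field F₀] [Field F₁] [Field F] [Algebra K F₀]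
  [Algebra K F₁] [Algebra K F] {a0 b0 : F₀ →ₐ[K] F₁} {a1 b1 : F₁ →ₐ[K] F} {x : F₀}

variable [IsAlgClosed K] [CharZero K] [IsFF1 K F₀] [IsFF1 K F₁] [IsFF1 K F]

/-- sign of the order along a morphism. -/
theorem ord_map_neg_iff (a : F₁ →ₐ[K] F) (P : Place K F) (z : F₁) :
    P.ord (a z) < 0 ↔ (P.restrictAlong a (FF.isIntegral_toRingHom a)).ord z < 0 := by
  rw [Place.ord_restrictAlong a (FF.isIntegral_toRingHom a)]
  have h : (0 : ℤ) < (P.ramificationIndexAlong a : ℤ) := by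
    exact_mod_cast places_ramificationIndexAlong_pos (α := a) P
  constructor
  · intro h1
    by_contra h2
    exact absurd h1 (not_lt.mpr (mul_nonneg h.le (not_lt.mp h2)))
  · intro h1
    exact mul_neg_of_pos_of_neg h h1

theorem ord_map_nonneg_iff (a : F₁ →ₐ[K] F) (P : Place K F) (z : F₁) :
    0 ≤ P.ord (a z) ↔ 0 ≤ (P.restrictAlong a (FF.isIntegral_toRingHom a)).ord z := by
  rw [← not_lt, ← not_lt, ord_map_neg_iff]

theorem ord_map_pos_iff (a : F₁ →ₐ[K] F) (P : Place K F) (z : F₁) :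
    0 < P.ord (a z) ↔ 0 < (P.restrictAlong a (FF.isIntegral_toRingHom a)).ord z := by
  rw [Place.ord_restrictAlong a (FF.isIntegral_toRingHom a)]
  have h : (0 : ℤ) < (P.ramificationIndexAlong a : ℤ) := by
    exact_mod_cast places_ramificationIndexAlong_pos (α := a) P
  constructor
  · intro h1
    exact (pos_iff_pos_of_mul_pos h1).1 h
  · intro h1
    exact mul_pos h h1

/-- **(P1)** `x(τ)` and `x(qτ)` have the same poles at level `q²`. -/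
theorem pole_iff_αβ (hpol : ∀ P : Place K F₁, P.ord (a0 x) < 0 ↔ P.ord (b0 x) < 0)
    (P : Place K F) : P.ord (a1 (a0 x)) < 0 ↔ P.ord (a1 (b0 x)) < 0 := by
  rw [ord_map_neg_iff a1, ord_map_neg_iff a1, hpol]

/-- **(P1)** `x(qτ)` and `x(q²τ)` have the same poles at level `q²`. -/
theorem pole_iff_βγ (hpol : ∀ P : Place K F₁, P.ord (a0 x) < 0 ↔ P.ord (b0 x) < 0)
    (hc : ∀ c, a1 (b0 c) = b1 (a0 c)) (P : Place K F) :
    P.ord (a1 (b0 x)) < 0 ↔ P.ord (b1 (b0 x)) < 0 := by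
  rw [hc, ord_map_neg_iff b1, ord_map_neg_iff b1, hpol]

/-- **(P1)** `x(τ)` and `x(q²τ)` have the same poles at level `q²`. -/
theorem pole_iff_αγ (hpol : ∀ P : Place K F₁, P.ord (a0 x) < 0 ↔ P.ord (b0 x) < 0)
    (hc : ∀ c, a1 (b0 c) = b1 (a0 c)) (P : Place K F) :
    P.ord ((a1.comp a0) x) < 0 ↔ P.ord ((b1.comp b0) x) < 0 :=
  (pole_iff_αβ hpol P).trans (pole_iff_βγ hpol hc P)

/-- the poles of `t` are the poles of `x(τ)`. -/
theorem pole_tt_iff (ht : Transcendental K (tt (a1.comp a0) (b1.comp b0) x))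
    (hpol : ∀ P : Place K F₁, P.ord (a0 x) < 0 ↔ P.ord (b0 x) < 0)
    (hc : ∀ c, a1 (b0 c) = b1 (a0 c)) (P : Place K F) :
    P.ord (tt (a1.comp a0) (b1.comp b0) x) < 0 ↔ P.ord (a1 (a0 x)) < 0 := by
  obtain ⟨hα, hγ⟩ := IntTransfer_ne_zero ht
  have h := pole_iff_αγ (a1 := a1) (b1 := b1) hpol hc P
  rw [tt, P.ord_mul hα hγ]
  constructor
  · intro h1
    by_contra h2
    have h3 : ¬ P.ord ((b1.comp b0) x) < 0 := fun h4 => h2 (h.2 h4)
    have h2' : ¬ P.ord ((a1.comp a0) x) < 0 := h2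
    omega
  · intro h1
    have h1' : P.ord ((a1.comp a0) x) < 0 := h1
    have h3 := h.1 h1'
    omega

omit [IsAlgClosed K] [CharZero K] [IsFF1 K F₀] [IsFF1 K F₁] in
/-- the poles of `t₁` are the poles of `x(τ)` (level `q`). -/
theorem pole_tt₁_iff (ht : Transcendental K (tt a0 b0 x))
    (hpol : ∀ P : Place K F₁, P.ord (a0 x) < 0 ↔ P.ord (b0 x) < 0) (P : Place K F₁) :
    P.ord (tt a0 b0 x) < 0 ↔ P.ord (a0 x) < 0 := by
  obtain ⟨hα, hγ⟩ := IntTransfer_ne_zero ht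
  have h := hpol P
  rw [tt, P.ord_mul hα hγ]
  constructor
  · intro h1
    by_contra h2
    have h3 : ¬ P.ord (b0 x) < 0 := fun h4 => h2 (h.2 h4)
    omega
  · intro h1
    have h3 := h.1 h1
    omega

/-- **(P2)** `B'_x → B_t` via `α`. -/
theorem isInt_α (ht : Transcendental K (tt (a1.comp a0) (b1.comp b0) x))
    (hpol : ∀ P : Place K F₁, P.ord (a0 x) < 0 ↔ P.ord (b0 x) < 0)
    (hc : ∀ c, a1 (b0 c) = b1 (a0 c)) {c : F₀} (h : IsInt K x c) :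
    IsInt K (tt (a1.comp a0) (b1.comp b0) x) (a1 (a0 c)) :=
  TOR.T1.isInt_α (α := a1.comp a0) (β := b1.comp b0) ht (pole_iff_αγ hpol hc) h

/-- **(P2)** `B'_x → B_t` via `γ`. -/
theorem isInt_γ (ht : Transcendental K (tt (a1.comp a0) (b1.comp b0) x))
    (hpol : ∀ P : Place K F₁, P.ord (a0 x) < 0 ↔ P.ord (b0 x) < 0)
    (hc : ∀ c, a1 (b0 c) = b1 (a0 c)) {c : F₀} (h : IsInt K x c) :
    IsInt K (tt (a1.comp a0) (b1.comp b0) x) (b1 (b0 c)) := by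
  have e : tt (a1.comp a0) (b1.comp b0) x = tt (b1.comp b0) (a1.comp a0) x := mul_comm _ _
  rw [e] at ht ⊢
  exact TOR.T1.isInt_α (α := b1.comp b0) (β := a1.comp a0) ht
    (fun P => (pole_iff_αγ hpol hc P).symm) h

/-- **(P2)** `B₁_{t₁} → B_t` via `a1`. -/
theorem isInt_a1 (ht : Transcendental K (tt (a1.comp a0) (b1.comp b0) x))
    (hpol : ∀ P : Place K F₁, P.ord (a0 x) < 0 ↔ P.ord (b0 x) < 0)
    (hc : ∀ c, a1 (b0 c) = b1 (a0 c)) {z : F₁} (h : IsInt K (tt a0 b0 x) z) :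
    IsInt K (tt (a1.comp a0) (b1.comp b0) x) (a1 z) := by
  rw [isInt_iff_forall_ord ht]
  intro P hP
  apply IntTransfer_ord_nonneg (isInt_map_algHom a1 h) P
  have h1 : ¬ P.ord (a1 (a0 x)) < 0 := fun h2 =>
    absurd ((pole_tt_iff ht hpol hc P).2 h2) (not_lt.2 hP)
  have h2 : ¬ P.ord (a1 (b0 x)) < 0 := fun h3 => h1 ((pole_iff_αβ hpol P).2 h3)
  rw [tt, map_mul]
  exact FF.ExtNorm_ord_mul_nonneg P (not_lt.1 h1) (not_lt.1 h2)

/-- **(P2)** `B₁_{t₁} → B_t` via `b1`. -/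
theorem isInt_b1 (ht : Transcendental K (tt (a1.comp a0) (b1.comp b0) x))
    (hpol : ∀ P : Place K F₁, P.ord (a0 x) < 0 ↔ P.ord (b0 x) < 0)
    (hc : ∀ c, a1 (b0 c) = b1 (a0 c)) {z : F₁} (h : IsInt K (tt a0 b0 x) z) :
    IsInt K (tt (a1.comp a0) (b1.comp b0) x) (b1 z) := by
  rw [isInt_iff_forall_ord ht]
  intro P hP
  apply IntTransfer_ord_nonneg (isInt_map_algHom b1 h) P
  have h1 : ¬ P.ord (a1 (a0 x)) < 0 := fun h2 =>
    absurd ((pole_tt_iff ht hpol hc P).2 h2) (not_lt.2 hP)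
  have h2 : ¬ P.ord (a1 (b0 x)) < 0 := fun h3 => h1 ((pole_iff_αβ hpol P).2 h3)
  have h3 : ¬ P.ord (b1 (b0 x)) < 0 := fun h4 => h2 ((pole_iff_βγ hpol hc P).2 h4)
  rw [hc] at h2
  rw [tt, map_mul]
  exact FF.ExtNorm_ord_mul_nonneg P (not_lt.1 h2) (not_lt.1 h3)

/-- **(P2)** `B'_x → B_t` via `β`. -/
theorem isInt_β (ht : Transcendental K (tt (a1.comp a0) (b1.comp b0) x))
    (hpol : ∀ P : Place K F₁, P.ord (a0 x) < 0 ↔ P.ord (b0 x) < 0)
    (hc : ∀ c, a1 (b0 c) = b1 (a0 c)) {c : F₀} (h : IsInt K x c) :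
    IsInt K (tt (a1.comp a0) (b1.comp b0) x) (a1 (b0 c)) := by
  rw [isInt_iff_forall_ord ht]
  intro P hP
  apply IntTransfer_ord_nonneg (isInt_map_algHom (a1.comp b0) h) P
  have h1 : ¬ P.ord (a1 (a0 x)) < 0 := fun h2 =>
    absurd ((pole_tt_iff ht hpol hc P).2 h2) (not_lt.2 hP)
  have h2 : ¬ P.ord (a1 (b0 x)) < 0 := fun h3 => h1 ((pole_iff_αβ hpol P).2 h3)
  exact not_lt.1 h2

/-- **(P3)** `B'_{1/x} → B_{1/t}` via `α`. -/
theorem isInt_α_inv (ht : Transcendental K (tt (a1.comp a0) (b1.comp b0) x))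
    (hpol : ∀ P : Place K F₁, P.ord (a0 x) < 0 ↔ P.ord (b0 x) < 0)
    (hc : ∀ c, a1 (b0 c) = b1 (a0 c)) {c : F₀} (h : IsInt K x⁻¹ c) :
    IsInt K (tt (a1.comp a0) (b1.comp b0) x)⁻¹ (a1 (a0 c)) :=
  TOR.T1.isInt_α_inv (α := a1.comp a0) (β := b1.comp b0) ht (pole_iff_αγ hpol hc) h

/-- **(P3)** `B'_{1/x} → B_{1/t}` via `γ`. -/
theorem isInt_γ_inv (ht : Transcendental K (tt (a1.comp a0) (b1.comp b0) x))
    (hpol : ∀ P : Place K F₁, P.ord (a0 x) < 0 ↔ P.ord (b0 x) < 0)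
    (hc : ∀ c, a1 (b0 c) = b1 (a0 c)) {c : F₀} (h : IsInt K x⁻¹ c) :
    IsInt K (tt (a1.comp a0) (b1.comp b0) x)⁻¹ (b1 (b0 c)) := by
  have e : tt (a1.comp a0) (b1.comp b0) x = tt (b1.comp b0) (a1.comp a0) x := mul_comm _ _
  rw [e] at ht ⊢
  exact TOR.T1.isInt_α_inv (α := b1.comp b0) (β := a1.comp a0) ht
    (fun P => (pole_iff_αγ hpol hc P).symm) h

/-- **(P4)** the norm along `a1` maps `B_t` to `B₁_{t₁}`. -/
theorem isInt_norm_a1 (ht : Transcendental K (tt (a1.comp a0) (b1.comp b0) x))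
    (ht₁ : Transcendental K (tt a0 b0 x))
    (hpol : ∀ P : Place K F₁, P.ord (a0 x) < 0 ↔ P.ord (b0 x) < 0)
    (hc : ∀ c, a1 (b0 c) = b1 (a0 c)) {z : F} (h : IsInt K (tt (a1.comp a0) (b1.comp b0) x) z) :
    IsInt K (tt a0 b0 x) (@Algebra.norm F₁ F _ _ (algebraAlong a1) z) := by
  let _ := algebraAlong a1
  have := isScalarTower_along a1
  have : Module.Finite F₁ F := FF.finite_of_isFF1 K F₁ F
  rw [isInt_iff_forall_ord ht₁]
  intro Q hQ
  apply FF.ord_norm_nonneg Q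
  intro P hP
  apply IntTransfer_ord_nonneg h P
  rw [← not_lt, pole_tt_iff ht hpol hc, ord_map_neg_iff a1]
  have e : P.restrictAlong a1 (FF.isIntegral_toRingHom a1) = Q := hP
  rw [e, ← pole_tt₁_iff ht₁ hpol, not_lt]
  exact hQ

/-- **(P4)** the norm along `b1` maps `B_t` to `B₁_{t₁}`. -/
theorem isInt_norm_b1 (ht : Transcendental K (tt (a1.comp a0) (b1.comp b0) x))
    (ht₁ : Transcendental K (tt a0 b0 x))
    (hpol : ∀ P : Place K F₁, P.ord (a0 x) < 0 ↔ P.ord (b0 x) < 0)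
    (hc : ∀ c, a1 (b0 c) = b1 (a0 c)) {z : F} (h : IsInt K (tt (a1.comp a0) (b1.comp b0) x) z) :
    IsInt K (tt a0 b0 x) (@Algebra.norm F₁ F _ _ (algebraAlong b1) z) := by
  let _ := algebraAlong b1
  have := isScalarTower_along b1
  have : Module.Finite F₁ F := FF.finite_of_isFF1 K F₁ F
  rw [isInt_iff_forall_ord ht₁]
  intro Q hQ
  apply FF.ord_norm_nonneg Q
  intro P hP
  apply IntTransfer_ord_nonneg h P
  rw [← not_lt, pole_tt_iff ht hpol hc, pole_iff_αβ hpol, hc, ord_map_neg_iff b1]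
  have e : P.restrictAlong b1 (FF.isIntegral_toRingHom b1) = Q := hP
  rw [e, ← pole_tt₁_iff ht₁ hpol, not_lt]
  exact hQ

end Fermat.Agent.CAR.BKP
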